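import Mathlib

/-!
# The mean number of vectors fixed by a matrix in `GL₂(ℤ/N)`

The orbits of `GL₂(ℤ/N)` on `(ℤ/N)²` are classified by the order of the vector, one for each divisor
of `N`; Burnside's lemma turns this into the mean number of fixed vectors.
-/

set_option autoImplicit false
set_option linter.style.haveILetI false

noncomputable section

open Matrix Finset
open scoped Classical

namespace FA.MeanTorsion

variable (N : ℕ) [NeZero N]

local notation "G2" => GL (Fin 2) (ZMod N)
local notation "V2" => (Fin 2 → ZMod N)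

/-- The action on column vectors. -/
@[reducible] def vecAction : MulAction G2 V2 where
  smul g v := g.val *ᵥ v
  one_smul v := one_mulVec v
  mul_smul g h v := (mulVec_mulVec v g.val h.val).symm

/-- The number of fixed vectors. -/
def numFixed (g : G2) : ℕ := Nat.card {v : V2 // g.val *ᵥ v = v}

theorem numFixed_dvd (g : G2) : numFixed N g ∣ N ^ 2 := by
  have h := AddSubgroup.card_addSubgroup_dvd_card
    ((g.val - 1).mulVecLin.toAddMonoidHom.ker : AddSubgroup V2)
  have e : Nat.card ((g.val - 1).mulVecLin.toAddMonoidHom.ker : AddSubgroup V2) = numFixed N g :=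
    Nat.card_congr (Equiv.subtypeEquiv (Equiv.refl V2) fun v => by
      show (g.val - 1) *ᵥ v = 0 ↔ g.val *ᵥ v = v
      rw [sub_mulVec, one_mulVec, sub_eq_zero])
  rwa [e, show Nat.card V2 = N ^ 2 by simp] at h

theorem numFixed_conj (g z : G2) : numFixed N (z * g * z⁻¹) = numFixed N g := by
  letI := vecAction N
  refine Nat.card_congr ((MulAction.toPerm z⁻¹).subtypeEquiv fun v => ?_)
  show (z * g * z⁻¹) • v = v ↔ g • (z⁻¹ • v) = z⁻¹ • v
  rw [mul_smul, mul_smul]
  exact ⟨fun h => by rw [eq_inv_smul_iff, h], fun h => by rw [h, smul_inv_smul]⟩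

/-- An integral pair is in the orbit of its greatest common divisor. -/
theorem exists_smul_gcd (a b : ℤ) :
    ∃ g : G2, g.val *ᵥ ![((Int.gcd a b : ℤ) : ZMod N), 0] = ![(a : ZMod N), (b : ZMod N)] := by
  rcases Nat.eq_zero_or_pos (Int.gcd a b) with h | h
  · obtain ⟨rfl, rfl⟩ := Int.gcd_eq_zero_iff.mp h
    refine ⟨1, ?_⟩
    rw [h, Units.val_one, one_mulVec]
    simp
  obtain ⟨a', b', hco, ha, hb⟩ := Int.exists_gcd_one h
  obtain ⟨u, w, huw⟩ := Int.isCoprime_iff_gcd_eq_one.mpr hco
  let A : Matrix (Fin 2) (Fin 2) (ZMod N) := !![(a' : ZMod N), -(w : ZMod N); (b' : ZMod N), u]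
  have hA : IsUnit A.det := by
    have e : A.det = ((u * a' + w * b' : ℤ) : ZMod N) := by
      simp [A, det_fin_two]
      ring
    rw [e, huw, Int.cast_one]
    exact isUnit_one
  refine ⟨Matrix.GeneralLinearGroup.mk'' A hA, ?_⟩
  show A *ᵥ _ = _
  funext i
  fin_cases i
  · conv_rhs => rw [ha]
    simp [A, mulVec, dotProduct, Fin.sum_univ_two]
  · conv_rhs => rw [hb]
    simp [A, mulVec, dotProduct, Fin.sum_univ_two]

/-- The order is kept by the action. -/
theorem addOrderOf_mulVec (g : G2) (v : V2) : addOrderOf (g.val *ᵥ v) = addOrderOf v :=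
  addOrderOf_injective g.val.mulVecLin.toAddMonoidHom
    (Function.LeftInverse.injective (g := fun w => (g⁻¹).val *ᵥ w) fun x => by
      show (g⁻¹).val *ᵥ (g.val *ᵥ x) = x
      rw [mulVec_mulVec, ← Units.val_mul, inv_mul_cancel, Units.val_one, one_mulVec]) v

/-- The order of `(h, 0)`. -/
theorem addOrderOf_axis {h : ℕ} (hd : h ∣ N) :
    addOrderOf ![((h : ℤ) : ZMod N), 0] = N / h := by
  rw [show ![((h : ℤ) : ZMod N), 0] =
      AddMonoidHom.single (fun _ : Fin 2 => ZMod N) 0 (h : ZMod N) by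
      funext i
      fin_cases i <;> simp,
    addOrderOf_injective _ (fun x y e => by simpa using congrFun e 0),
    ZMod.addOrderOf_coe _ (NeZero.ne N),
    Nat.gcd_eq_right hd]

/-- Every vector is in the orbit of `(N / order, 0)`. -/
theorem exists_smul_axis (v : V2) :
    ∃ g : G2, g.val *ᵥ ![(((N / addOrderOf v : ℕ) : ℤ) : ZMod N), 0] = v := by
  obtain ⟨g₁, h₁⟩ := exists_smul_gcd N ((v 0).val : ℤ) ((v 1).val : ℤ)
  obtain ⟨g₂, h₂⟩ := exists_smul_gcd N ((Int.gcd ((v 0).val : ℤ) ((v 1).val : ℤ) : ℕ) : ℤ) (N : ℤ)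
  set c := Int.gcd ((v 0).val : ℤ) ((v 1).val : ℤ)
  set h := Int.gcd ((c : ℕ) : ℤ) (N : ℤ)
  rw [show (((v 0).val : ℤ) : ZMod N) = v 0 by simp,
    show (((v 1).val : ℤ) : ZMod N) = v 1 by simp] at h₁
  rw [show ((N : ℤ) : ZMod N) = 0 by simp] at h₂
  have hv : (g₁ * g₂).val *ᵥ ![((h : ℤ) : ZMod N), 0] = v := by
    rw [Units.val_mul, ← mulVec_mulVec, h₂, h₁]
    funext i
    fin_cases i <;> rfl
  have hd : h ∣ N := Int.natCast_dvd_natCast.mp (Int.gcd_dvd_right _ _)
  refine ⟨g₁ * g₂, ?_⟩
  rw [← hv, addOrderOf_mulVec, addOrderOf_axis N hd, Nat.div_div_self hd (NeZero.ne N)]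

/-- **The mean number of fixed vectors is the number of divisors**, by Burnside. -/
theorem sum_numFixed : ∑ g : G2, numFixed N g = N.divisors.card * Fintype.card G2 := by
  letI := vecAction N
  have hinv : ∀ v w : V2, MulAction.orbitRel G2 V2 v w → addOrderOf v = addOrderOf w := by
    rintro v w ⟨g, rfl⟩
    exact addOrderOf_mulVec N g w
  let f : MulAction.orbitRel.Quotient G2 V2 → N.divisors := fun o =>
    Quotient.liftOn o (fun v => (⟨addOrderOf v, Nat.mem_divisors.mpr
      ⟨addOrderOf_dvd_of_nsmul_eq_zero (funext fun i => by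
        rw [Pi.smul_apply, nsmul_eq_mul, ZMod.natCast_self, zero_mul]; rfl), NeZero.ne N⟩⟩ :
        N.divisors)) fun v w h => Subtype.ext (hinv v w h)
  have hf : Function.Bijective f := by
    constructor
    · intro x y
      refine Quotient.inductionOn₂ x y fun v w e => Quotient.sound ?_
      have e' : addOrderOf v = addOrderOf w := congrArg Subtype.val e
      obtain ⟨g, hg⟩ := exists_smul_axis N v
      obtain ⟨k, hk⟩ := exists_smul_axis N w
      rw [← e'] at hk
      refine ⟨g * k⁻¹, ?_⟩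
      show (g * k⁻¹) • w = v
      rw [mul_smul, inv_smul_eq_iff.mpr (show w = k • _ from hk.symm)]
      exact hg
    · rintro ⟨d, hd⟩
      have hdN := Nat.dvd_of_mem_divisors hd
      refine ⟨Quotient.mk'' ![(((N / d : ℕ) : ℤ) : ZMod N), 0], Subtype.ext ?_⟩
      show addOrderOf ![(((N / d : ℕ) : ℤ) : ZMod N), 0] = d
      rw [addOrderOf_axis N (Nat.div_dvd_of_dvd hdN), Nat.div_div_self hdN (NeZero.ne N)]
  have h := MulAction.sum_card_fixedBy_eq_card_orbits_mul_card_group G2 V2
  rw [Fintype.card_congr (Equiv.ofBijective f hf), Fintype.card_coe] at h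
  rw [← h]
  refine Finset.sum_congr rfl fun g _ => ?_
  rw [numFixed, Nat.card_eq_fintype_card]
  exact Fintype.card_congr (Equiv.subtypeEquivRight fun v => Iff.rfl)

/-- The proportion of the matrices fixing `k` vectors. -/
def fixedShare (k : ℕ) : ℝ :=
  (Nat.card {g : G2 // numFixed N g = k} : ℝ) / Nat.card G2

theorem fixedShare_eq_zero {k : ℕ} (hk : ¬ k ∣ N ^ 2) : fixedShare N k = 0 := by
  haveI : IsEmpty {g : G2 // numFixed N g = k} := ⟨fun g => hk (g.2 ▸ numFixed_dvd N g.1)⟩
  rw [fixedShare, Nat.card_of_isEmpty, Nat.cast_zero, zero_div]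

theorem sum_mul_fixedShare (F : ℕ → ℝ) :
    ∑ k ∈ (N ^ 2).divisors, F k * fixedShare N k =
      (∑ g : G2, F (numFixed N g)) / Fintype.card G2 := by
  rw [← Finset.sum_fiberwise_of_maps_to (g := fun g : G2 => numFixed N g) (t := (N ^ 2).divisors)
    fun g _ => Nat.mem_divisors.mpr ⟨numFixed_dvd N g, pow_ne_zero _ (NeZero.ne N)⟩,
    Finset.sum_div]
  refine Finset.sum_congr rfl fun k _ => ?_
  rw [fixedShare, Nat.card_eq_fintype_card, Nat.card_eq_fintype_card, Fintype.card_subtype,
    Finset.sum_congr rfl fun g hg => by rw [(Finset.mem_filter.mp hg).2],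
    Finset.sum_const, nsmul_eq_mul]
  ring

theorem sum_fixedShare : ∑ k ∈ (N ^ 2).divisors, fixedShare N k = 1 := by
  have h := sum_mul_fixedShare N fun _ => 1
  simp only [one_mul, Finset.sum_const, nsmul_eq_mul, mul_one, Finset.card_univ] at h
  rw [h, div_self (Nat.cast_ne_zero.mpr Fintype.card_pos.ne')]

/-- **The mean is the number of divisors.** -/
theorem sum_id_mul_fixedShare :
    ∑ k ∈ (N ^ 2).divisors, (k : ℝ) * fixedShare N k = N.divisors.card := by
  rw [sum_mul_fixedShare N fun k => (k : ℝ), ← Nat.cast_sum, sum_numFixed, Nat.cast_mul,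
    mul_div_cancel_right₀ _ (Nat.cast_ne_zero.mpr Fintype.card_pos.ne')]

/-- Only the identity fixes every vector. -/
theorem fixedShare_top : fixedShare N (N ^ 2) = 1 / Fintype.card G2 := by
  haveI : Unique {g : G2 // numFixed N g = N ^ 2} := by
    have key : ∀ g : G2, numFixed N g = N ^ 2 ↔ g = 1 := fun g => by
      constructor
      · intro h
        have hv : Nat.card V2 = N ^ 2 := by simp
        have hs := (Nat.bijective_iff_injective_and_card
          (Subtype.val : {v : V2 // g.val *ᵥ v = v} → V2)).mpr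
          ⟨Subtype.val_injective, h.trans hv.symm⟩
        refine Units.ext (Matrix.ext_of_mulVec_single fun l => ?_)
        obtain ⟨⟨v, hv'⟩, e⟩ := hs.2 (Pi.single l 1)
        obtain rfl : v = Pi.single l 1 := e
        rw [hv', Units.val_one, one_mulVec]
      · rintro rfl
        rw [numFixed, Nat.card_congr (Equiv.subtypeUnivEquiv fun v => by simp)]
        simp
    exact { default := ⟨1, (key 1).mpr rfl⟩, uniq := fun g => Subtype.ext ((key g.1).mp g.2) }
  rw [fixedShare, Nat.card_unique, Nat.cast_one, ← Nat.card_eq_fintype_card]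

/-- **The second moment at a prime**: `p + 3`. -/
theorem sum_sq_mul_fixedShare (hN : N.Prime) :
    ∑ k ∈ (N ^ 2).divisors, (k : ℝ) ^ 2 * fixedShare N k = (N : ℝ) + 3 := by
  haveI := Fact.mk hN
  have hdiv : (N ^ 2).divisors = {1, N, N ^ 2} := by
    ext d
    rw [Nat.mem_divisors, Nat.dvd_prime_pow hN]
    constructor
    · rintro ⟨⟨i, hi, rfl⟩, -⟩
      interval_cases i <;> simp
    · intro h
      simp only [Finset.mem_insert, Finset.mem_singleton] at h
      refine ⟨?_, pow_ne_zero _ hN.ne_zero⟩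
      rcases h with rfl | rfl | rfl
      · exact ⟨0, by norm_num, rfl⟩
      · exact ⟨1, by norm_num, (pow_one d).symm⟩
      · exact ⟨2, le_rfl, rfl⟩
  have h2 := hN.two_le
  have n1 : (1 : ℕ) ∉ ({N, N ^ 2} : Finset ℕ) := by
    simp only [Finset.mem_insert, Finset.mem_singleton]
    rintro (h | h) <;> nlinarith
  have n2 : N ∉ ({N ^ 2} : Finset ℕ) := by
    rw [Finset.mem_singleton]
    intro h
    nlinarith
  have hG : (Fintype.card G2 : ℝ) = ((N : ℝ) ^ 2 - 1) * ((N : ℝ) ^ 2 - N) := by
    rw [← Nat.card_eq_fintype_card, Matrix.card_GL_field, Fin.prod_univ_two, ZMod.card,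
      Nat.cast_mul,
      Nat.cast_sub (by simp [Nat.one_le_pow, hN.pos]), Nat.cast_sub
        (Nat.pow_le_pow_right hN.pos (by norm_num))]
    simp
  have s0 := sum_fixedShare N
  have s1 := sum_id_mul_fixedShare N
  rw [hdiv, Finset.sum_insert n1, Finset.sum_insert n2, Finset.sum_singleton, fixedShare_top,
    hG] at s0 s1
  rw [hdiv, Finset.sum_insert n1, Finset.sum_insert n2, Finset.sum_singleton, fixedShare_top, hG]
  rw [Nat.Prime.divisors hN, Finset.card_pair (by omega)] at s1
  push_cast at s0 s1 ⊢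
  have hNR : (2 : ℝ) ≤ N := by exact_mod_cast h2
  have a1 : ((N : ℝ) ^ 2 - 1) ≠ 0 := by nlinarith
  have a2 : ((N : ℝ) ^ 2 - N) ≠ 0 := by nlinarith
  have hz : ((N : ℝ) ^ 2 - 1) * ((N : ℝ) ^ 2 - N) *
      (1 / (((N : ℝ) ^ 2 - 1) * ((N : ℝ) ^ 2 - N))) = 1 := mul_one_div_cancel (mul_ne_zero a1 a2)
  linear_combination ((N : ℝ) + 1) * s1 - (N : ℝ) * s0 + hz

end FA.MeanTorsion

end
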