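import Fermat.Agent.MeanTorsion.Count
import Fermat.Agent.ReducedGroups.Basic

/-!
# The primes with given number of `N`-torsion points modulo `q`

Away from `N` and the bad primes that number is the number of vectors fixed by Frobenius, so
Chebotarev gives its distribution.
-/

set_option autoImplicit false
set_option linter.style.haveILetI false

noncomputable section

open Matrix WeierstrassCurve NumberField IsDedekindDomain FA.Frob
open FA.RT.Tate (Pts)
open scoped WeierstrassCurve.Affine Classical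

local notation "Qb" => AlgebraicClosure ℚ
local notation "GQ" => AlgebraicClosure ℚ ≃ₐ[ℚ] AlgebraicClosure ℚ

namespace FA.MeanTorsion

variable {W : WeierstrassCurve ℤ} [(ratCurve W).IsElliptic] {N : ℕ} [NeZero N]

/-- **The representation in coordinates**, onto, with its numbers of fixed vectors. -/
theorem exists_rep_level
    (hfull : ∀ φ : Submodule.torsionBy ℤ ((ratCurve W)⁄Qb).Point (N : ℤ) ≃+
      Submodule.torsionBy ℤ ((ratCurve W)⁄Qb).Point (N : ℤ),
      ∃ σ : GQ, ∀ x, σ • x.1 = (φ x).1) :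
    ∃ ρ : GQ →* GL (Fin 2) (ZMod N), Function.Surjective ρ ∧ IsOpen (ρ.ker : Set GQ) ∧
      ∀ σ, numFixed N (ρ σ) = Nat.card {Q : Pts W // N • Q = 0 ∧ σ • Q = Q} := by
  obtain ⟨e⟩ := FA.PadicImage.nonempty_torsion_equiv W (N := N)
  let T := Submodule.torsionBy ℤ ((ratCurve W)⁄Qb).Point (N : ℤ)
  let u : GQ →* (Module.End (ZMod N) T)ˣ :=
    (Affine.Point.galoisRepModuleEnd (K := Qb) ℚ (ratCurve W).toAffine N).toHomUnits
  let c : (Module.End (ZMod N) T)ˣ ≃* GL (Fin 2) (ZMod N) :=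
    (LinearMap.GeneralLinearGroup.congrLinearEquiv e.symm).trans
      Matrix.GeneralLinearGroup.toLin.symm
  have hT : ∀ {Q : Pts W}, Q ∈ T ↔ N • Q = 0 := fun {Q} => by
    rw [Submodule.mem_torsionBy_iff, natCast_zsmul]
  have hu : Function.Surjective u := fun g => by
    obtain ⟨σ, hσ⟩ := hfull (LinearMap.GeneralLinearGroup.generalLinearEquiv _ _ g).toAddEquiv
    exact ⟨σ, Units.ext (LinearMap.ext fun x => Subtype.ext (hσ x))⟩
  refine ⟨c.toMonoidHom.comp u, c.surjective.comp hu, ?_, fun σ => ?_⟩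
  · refine Subgroup.isOpen_mono (fun σ hσ => ?_) (FA.TraceDist.isOpen_ker_glLevel (W := W) (N := N))
    rw [MonoidHom.mem_ker] at hσ ⊢
    show c (u σ) = 1
    rw [MulEquiv.map_eq_one_iff]
    refine Units.ext (LinearMap.ext fun x => Subtype.ext ?_)
    exact (FA.TraceDist.repLevel_eq_one_iff σ).mp (congrArg Units.val hσ) x.1 (hT.mp x.2)
  · have key : ∀ v, (c (u σ)).val *ᵥ v = e.symm ((u σ).val (e v)) := fun v => by
      show (LinearMap.toMatrix' _) *ᵥ v = _
      rw [← Matrix.toLin'_apply, Matrix.toLin'_toMatrix']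
      rfl
    show Nat.card {v // (c (u σ)).val *ᵥ v = v} = _
    refine Nat.card_congr ?_
    exact
      { toFun := fun v => ⟨(e v.1).1, hT.mp (e v.1).2, by
          have h : (u σ).val (e v.1) = e v.1 := by
            rw [← e.symm.injective.eq_iff, ← key, v.2, LinearEquiv.symm_apply_apply]
          exact congrArg Subtype.val h⟩
        invFun := fun Q => ⟨e.symm ⟨Q.1, hT.mpr Q.2.1⟩, by
          rw [key, LinearEquiv.apply_symm_apply]
          exact congrArg e.symm (Subtype.ext Q.2.2)⟩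
        left_inv := fun v => Subtype.ext (by simp)
        right_inv := fun Q => Subtype.ext (by simp) }

/-- **The distribution of the number of `N`-torsion points modulo `q`.** -/
theorem hasDirichletDensity_natCard_torsion
    (hfull : ∀ φ : Submodule.torsionBy ℤ ((ratCurve W)⁄Qb).Point (N : ℤ) ≃+
      Submodule.torsionBy ℤ ((ratCurve W)⁄Qb).Point (N : ℤ),
      ∃ σ : GQ, ∀ x, σ • x.1 = (φ x).1) (k : ℕ) :
    {v : HeightOneSpectrum (𝓞 ℚ) | ∃ _ : Fact (Ideal.absNorm v.asIdeal).Prime,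
      Nat.card {R : (W.map (Int.castRingHom (ZMod (Ideal.absNorm v.asIdeal)))).toAffine.Point //
        N • R = 0} = k}.HasDirichletDensity (fixedShare N k) := by
  obtain ⟨ρ, hρ, hopen, hfix⟩ := exists_rep_level hfull
  have h := FA.Chebotarev.hasDirichletDensity_frobSet ρ hρ hopen
    (X := {g | numFixed N g = k}) fun g hg z => (numFixed_conj N g z).trans hg
  rw [← Nat.card_eq_fintype_card] at h
  have hΔ : W.Δ ≠ 0 := fun h0 => (ratCurve W).isUnit_Δ.ne_zero (by simp [ratCurve, h0])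
  refine FA.TraceDist.hasDirichletDensity_congr h
    (FA.Supersingular.finite_absNorm_mem ((W.Δ.natAbs * N).primeFactors)) fun v hv => ?_
  have hq := FA.Chebotarev.absNorm_prime v
  haveI := Fact.mk hq
  have hndvd : ¬ Ideal.absNorm v.asIdeal ∣ W.Δ.natAbs * N := fun hd =>
    hv (Nat.mem_primeFactors.mpr ⟨hq, hd, mul_ne_zero (Int.natAbs_ne_zero.mpr hΔ) (NeZero.ne N)⟩)
  have hgood : W.IsGoodPrimeFor (Ideal.absNorm v.asIdeal) := fun hd =>
    hndvd ((Int.natCast_dvd.mp hd).mul_right _)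
  have hqN : ¬ Ideal.absNorm v.asIdeal ∣ N := fun hd => hndvd (hd.mul_left _)
  have key : ∀ (A : ValuationSubring Qb), A.LiesOverPrime (Ideal.absNorm v.asIdeal) → ∀ σ : GQ,
      A.IsFrobeniusAt σ (Ideal.absNorm v.asIdeal) → numFixed N (ρ σ) =
        Nat.card {R : (W.map (Int.castRingHom (ZMod (Ideal.absNorm v.asIdeal)))).toAffine.Point //
          N • R = 0} := fun A hA σ hσ =>
    (hfix σ).trans (FA.ReducedGroups.natCard_torsion_reduction W hgood hqN hA hσ).symm
  constructor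
  · intro hm
    obtain ⟨A, hA⟩ := FA.Deform.exists_liesOverPrime hq
    obtain ⟨σ, hσ⟩ := FA.Deform.exists_isFrobeniusAt hq hA
    exact ⟨inferInstance, (key A hA σ hσ).symm.trans (hm A hA σ hσ)⟩
  · rintro ⟨_, h⟩ A hA σ hσ
    exact (key A hA σ hσ).trans h

/-- **The three moments.** -/
theorem exists_distribution
    (hfull : ∀ φ : Submodule.torsionBy ℤ ((ratCurve W)⁄Qb).Point (N : ℤ) ≃+
      Submodule.torsionBy ℤ ((ratCurve W)⁄Qb).Point (N : ℤ),
      ∃ σ : GQ, ∀ x, σ • x.1 = (φ x).1) :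
    ∃ d : ℕ → ℝ, (∀ k, {v : HeightOneSpectrum (𝓞 ℚ) | ∃ _ : Fact (Ideal.absNorm v.asIdeal).Prime,
      Nat.card {R : (W.map (Int.castRingHom (ZMod (Ideal.absNorm v.asIdeal)))).toAffine.Point //
        N • R = 0} = k}.HasDirichletDensity (d k)) ∧
      (∀ k, ¬ k ∣ N ^ 2 → d k = 0) ∧ ∑ k ∈ (N ^ 2).divisors, d k = 1 ∧
      ∑ k ∈ (N ^ 2).divisors, (k : ℝ) * d k = N.divisors.card ∧
      (N.Prime → ∑ k ∈ (N ^ 2).divisors, (k : ℝ) ^ 2 * d k = (N : ℝ) + 3) :=
  ⟨fixedShare N, hasDirichletDensity_natCard_torsion hfull, fun _ => fixedShare_eq_zero N,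
    sum_fixedShare N, sum_id_mul_fixedShare N, sum_sq_mul_fixedShare N⟩

end FA.MeanTorsion

end
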